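import Fermat.Agent.S23_helper24.CuspQuotient

set_option autoImplicit false

/-!
# Division of modular forms by a level-one form under an order hypothesis

If `G` is a modular form for `Γ ≤ SL(2, ℤ)` and `P` is a level-one form not vanishing at `i∞` such
that `ord_τ P ≤ ord_τ G` at every point of the upper half plane, then `G / P` is a modular form for
`Γ`.
-/

namespace Fermat.Agent.S20_helper24

open UpperHalfPlane Filter Topology ModularForm
open scoped MatrixGroups ModularForm Manifold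

open Fermat.Agent.S23_helper24

/-! ### Local and global holomorphic quotients -/

/-- local quotient from an inequality of orders -/
theorem exists_analyticAt_quotient {g q : ℂ → ℂ} {z₀ : ℂ} (hg : AnalyticAt ℂ g z₀)
    (hq : AnalyticAt ℂ q z₀) (hq0 : analyticOrderAt q z₀ ≠ ⊤)
    (hord : analyticOrderAt q z₀ ≤ analyticOrderAt g z₀) :
    ∃ h : ℂ → ℂ, AnalyticAt ℂ h z₀ ∧ ∀ᶠ z in 𝓝 z₀, h z * q z = g z := by
  obtain ⟨e, he⟩ := ENat.ne_top_iff_exists.mp hq0
  obtain ⟨q₁, hq₁, hq₁0, hq₁e⟩ := (hq.analyticOrderAt_eq_natCast (n := e)).mp he.symm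
  have hge : (e : ℕ∞) ≤ analyticOrderAt g z₀ := by rw [he]; exact hord
  obtain ⟨g₂, hg₂, hg₂e⟩ := (natCast_le_analyticOrderAt hg).mp hge
  refine ⟨fun z => g₂ z / q₁ z, hg₂.div hq₁ hq₁0, ?_⟩
  filter_upwards [hq₁e, hg₂e, hq₁.continuousAt.eventually_ne hq₁0] with z h1 h2 h3
  rw [h1, h2]
  simp only [smul_eq_mul]
  field_simp

theorem exists_differentiableOn_quotient_of_order {U : Set ℂ} (hU : IsOpen U)
    (hUc : IsPreconnected U) {g q : ℂ → ℂ} (hg : DifferentiableOn ℂ g U)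
    (hq : DifferentiableOn ℂ q U) (hq0 : ∃ z ∈ U, q z ≠ 0)
    (hord : ∀ z ∈ U, analyticOrderAt q z ≤ analyticOrderAt g z) :
    ∃ h : ℂ → ℂ, DifferentiableOn ℂ h U ∧ ∀ z ∈ U, h z * q z = g z := by
  have hga : AnalyticOnNhd ℂ g U := hg.analyticOnNhd hU
  have hqa : AnalyticOnNhd ℂ q U := hq.analyticOnNhd hU
  have hne : ∀ z₀ ∈ U, ∀ᶠ z in 𝓝[≠] z₀, q z ≠ 0 := fun z₀ hz₀ =>
    eventually_ne_zero_of_differentiableOn hU hUc hq hq0 hz₀
  have htop : ∀ z₀ ∈ U, analyticOrderAt q z₀ ≠ ⊤ := by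
    intro z₀ hz₀ htop
    rw [analyticOrderAt_eq_top] at htop
    have h1 : ∀ᶠ z in 𝓝[≠] z₀, q z = 0 := htop.filter_mono nhdsWithin_le_nhds
    have h2 := (hne z₀ hz₀).and h1
    have : (𝓝[≠] z₀).NeBot := inferInstance
    obtain ⟨z, hz1, hz2⟩ := h2.exists
    exact hz1 hz2
  -- choose local quotients
  have hloc : ∀ z₀ : U, ∃ h : ℂ → ℂ, AnalyticAt ℂ h z₀ ∧ ∀ᶠ z in 𝓝 (z₀ : ℂ), h z * q z = g z :=
    fun z₀ => exists_analyticAt_quotient (hga z₀ z₀.2) (hqa z₀ z₀.2) (htop z₀ z₀.2)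
      (hord z₀ z₀.2)
  choose hl hla hle using hloc
  classical
  set H : ℂ → ℂ := fun z => if hz : z ∈ U then hl ⟨z, hz⟩ z else 0 with hH
  have hHq : ∀ z ∈ U, H z * q z = g z := by
    intro z hz
    simp only [hH, dif_pos hz]
    exact (hle ⟨z, hz⟩).self_of_nhds
  refine ⟨H, ?_, hHq⟩
  intro z₀ hz₀
  -- near `z₀`, `H` coincides with the local quotient at `z₀`
  have hev : ∀ᶠ z in 𝓝 z₀, H z = hl ⟨z₀, hz₀⟩ z := by
    have h1 := hne z₀ hz₀
    rw [eventually_nhdsWithin_iff] at h1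
    filter_upwards [h1, hle ⟨z₀, hz₀⟩, hU.mem_nhds hz₀] with z hz1 hz2 hzU
    by_cases hzz : z = z₀
    · subst hzz
      simp only [hH, dif_pos hz₀]
    · have hqz : q z ≠ 0 := hz1 hzz
      have := hHq z hzU
      rw [← hz2] at this
      exact mul_right_cancel₀ hqz this
  exact ((hla ⟨z₀, hz₀⟩).congr (hev.mono fun z hz => hz.symm)).differentiableAt.differentiableWithinAt

/-- the quotient on the upper half plane -/
theorem exists_mdiff_quotient_of_order {G Q : ℍ → ℂ} (hG : MDiff G) (hQ : MDiff Q) (hQ0 : Q ≠ 0)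
    (hord : ∀ τ : ℍ, analyticOrderAt (Q ∘ ofComplex) (τ : ℂ) ≤
      analyticOrderAt (G ∘ ofComplex) (τ : ℂ)) :
    ∃ h : ℍ → ℂ, MDiff h ∧ ∀ z, h z * Q z = G z := by
  have hU : IsOpen upperHalfPlaneSet := isOpen_upperHalfPlaneSet
  have hUc : IsPreconnected upperHalfPlaneSet := (convex_halfSpace_im_gt 0).isPreconnected
  have hg := UpperHalfPlane.mdifferentiable_iff.mp hG
  have hq := UpperHalfPlane.mdifferentiable_iff.mp hQ
  have hq0 : ∃ z ∈ upperHalfPlaneSet, (Q ∘ ofComplex) z ≠ 0 := by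
    by_contra hcon
    push Not at hcon
    apply hQ0
    funext τ
    have := hcon (τ : ℂ) τ.im_pos
    simpa [Function.comp_apply, ofComplex_apply] using this
  have hord' : ∀ z ∈ upperHalfPlaneSet,
      analyticOrderAt (Q ∘ ofComplex) z ≤ analyticOrderAt (G ∘ ofComplex) z := by
    intro z hz
    exact hord ⟨z, hz⟩
  obtain ⟨H, hH, hHq⟩ := exists_differentiableOn_quotient_of_order hU hUc hg hq hq0 hord'
  refine ⟨fun τ => H (τ : ℂ), ?_, fun τ => ?_⟩
  · rw [UpperHalfPlane.mdifferentiable_iff]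
    refine hH.congr fun z hz => ?_
    simp only [Function.comp_apply]
    rw [ofComplex_apply_of_im_pos hz]
  · have := hHq (τ : ℂ) τ.im_pos
    simpa [Function.comp_apply, ofComplex_apply] using this

end Fermat.Agent.S20_helper24
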