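import Fermat.Agent.S20_helper24.WeierstrassUnique
import Mathlib.NumberTheory.ModularForms.EisensteinSeries.QExpansion
import Mathlib.NumberTheory.ModularForms.LevelOne.GradedRing
import Mathlib.Analysis.Complex.Polynomial.Basic

set_option autoImplicit false

namespace Fermat.Agent.S20_helper24

open Filter Topology UpperHalfPlane ModularForm EisensteinSeries
open scoped PeriodPair MatrixGroups

/-! ### The period pair `(z, 1)` and scaled period pairs -/

/-- the period pair `(z, 1)` attached to a point of the upper half plane -/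
noncomputable def tauPair (z : ℍ) : PeriodPair where
  ω₁ := z
  ω₂ := 1
  indep := by
    rw [LinearIndependent.pair_iff]
    intro s t h
    have him := congrArg Complex.im h
    simp only [Complex.real_smul, Complex.add_im, Complex.mul_im, Complex.ofReal_re,
      Complex.ofReal_im, zero_mul, add_zero, Complex.one_im, mul_zero, Complex.zero_im,
      UpperHalfPlane.coe_im] at him
    have hs : s = 0 := by
      rcases mul_eq_zero.mp him with h | h
      · exact h
      · exact absurd h z.im_ne_zero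
    subst hs
    have hre := congrArg Complex.re h
    simp at hre
    exact ⟨rfl, hre⟩

@[simp] theorem tauPair_ω₁ (z : ℍ) : (tauPair z).ω₁ = z := rfl
@[simp] theorem tauPair_ω₂ (z : ℍ) : (tauPair z).ω₂ = 1 := rfl

theorem mem_tauPair_lattice {z : ℍ} {x : ℂ} :
    x ∈ (tauPair z).lattice ↔ ∃ m n : ℤ, (m : ℂ) * z + n = x := by
  rw [PeriodPair.mem_lattice]
  simp

/-- the period pair `(c ω₁, c ω₂)` -/
noncomputable def scaledPair (c : ℂ) (hc : c ≠ 0) (L : PeriodPair) : PeriodPair where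
  ω₁ := c * L.ω₁
  ω₂ := c * L.ω₂
  indep := by
    rw [LinearIndependent.pair_iff]
    intro s t h
    have h' : c * (s • L.ω₁ + t • L.ω₂) = 0 := by
      rw [← h]
      simp only [Complex.real_smul]
      ring
    have := (mul_eq_zero.mp h').resolve_left hc
    exact LinearIndependent.pair_iff.mp L.indep s t this

theorem mem_scaledPair_lattice {c : ℂ} {hc : c ≠ 0} {L : PeriodPair} {x : ℂ} :
    x ∈ (scaledPair c hc L).lattice ↔ ∃ y ∈ L.lattice, c * y = x := by
  rw [PeriodPair.mem_lattice]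
  constructor
  · rintro ⟨m, n, rfl⟩
    refine ⟨m * L.ω₁ + n * L.ω₂, PeriodPair.mem_lattice.mpr ⟨m, n, rfl⟩, ?_⟩
    simp only [scaledPair]
    ring
  · rintro ⟨y, hy, rfl⟩
    obtain ⟨m, n, rfl⟩ := PeriodPair.mem_lattice.mp hy
    refine ⟨m, n, ?_⟩
    simp only [scaledPair]
    ring

/-- multiplication by `c` as an equivalence of lattices -/
noncomputable def scaleEquiv (c : ℂ) (hc : c ≠ 0) (L : PeriodPair) :
    L.lattice ≃ (scaledPair c hc L).lattice where
  toFun l := ⟨c * l.1, mem_scaledPair_lattice.mpr ⟨l.1, l.2, rfl⟩⟩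
  invFun l := ⟨c⁻¹ * l.1, by
    obtain ⟨y, hy, h⟩ := mem_scaledPair_lattice.mp l.2
    rw [← h, inv_mul_cancel_left₀ hc]
    exact hy⟩
  left_inv l := by
    ext
    simp [inv_mul_cancel_left₀ hc]
  right_inv l := by
    ext
    simp [mul_inv_cancel_left₀ hc]

theorem G_scaledPair (c : ℂ) (hc : c ≠ 0) (L : PeriodPair) (n : ℕ) :
    (scaledPair c hc L).G n = (c ^ n)⁻¹ * L.G n := by
  rw [PeriodPair.G, PeriodPair.G, ← (scaleEquiv c hc L).tsum_eq, ← tsum_mul_left]
  refine tsum_congr fun l => ?_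
  simp [scaleEquiv, mul_pow, mul_comm]

theorem g₂_scaledPair (c : ℂ) (hc : c ≠ 0) (L : PeriodPair) :
    (scaledPair c hc L).g₂ = (c ^ 4)⁻¹ * L.g₂ := by
  rw [PeriodPair.g₂, PeriodPair.g₂, G_scaledPair]
  ring

theorem g₃_scaledPair (c : ℂ) (hc : c ≠ 0) (L : PeriodPair) :
    (scaledPair c hc L).g₃ = (c ^ 6)⁻¹ * L.g₃ := by
  rw [PeriodPair.g₃, PeriodPair.g₃, G_scaledPair]
  ring

/-! ### Lattice sums and Eisenstein series -/

theorem G_tauPair {k : ℕ} (hk : 3 ≤ k) (z : ℍ) :
    (tauPair z).G k = 2 * riemannZeta k * E hk z := by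
  have hE : E hk z = (1 / 2 : ℂ) • eisensteinSeriesSIF (N := 1) 0 k z := rfl
  rw [hE, eisensteinSeriesSIF_apply 0 k z, smul_eq_mul]
  have h1 := tsum_eisSummand_eq_riemannZeta_mul_eisensteinSeries hk z
  have h2 : (tauPair z).G k = ∑' v : Fin 2 → ℤ, eisSummand k v z := by
    rw [PeriodPair.G, ← (tauPair z).latticeEquivProd.symm.toEquiv.tsum_eq,
      ← (finTwoArrowEquiv ℤ).symm.tsum_eq]
    refine tsum_congr fun x => ?_
    simp only [LinearEquiv.coe_toEquiv, PeriodPair.latticeEquiv_symm_apply, eisSummand,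
      tauPair_ω₁, tauPair_ω₂, mul_one, zpow_neg, zpow_natCast]
    simp [finTwoArrowEquiv]
  rw [h2, h1]
  ring

theorem riemannZeta_nat_ne_zero {k : ℕ} (hk : 2 ≤ k) : riemannZeta k ≠ 0 :=
  riemannZeta_ne_zero_of_one_lt_re (by simp only [Complex.natCast_re]; exact_mod_cast hk)

theorem g₂_tauPair (z : ℍ) : (tauPair z).g₂ = 120 * riemannZeta 4 * E₄ z := by
  rw [PeriodPair.g₂, G_tauPair (by norm_num : 3 ≤ 4)]
  push_cast
  ring

theorem g₃_tauPair (z : ℍ) : (tauPair z).g₃ = 280 * riemannZeta 6 * E₆ z := by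
  rw [PeriodPair.g₃, G_tauPair (by norm_num : 3 ≤ 6)]
  push_cast
  ring

theorem E₄_cube_sub_E₆_sq_ne_zero (z : ℍ) : E₄ z ^ 3 - E₆ z ^ 2 ≠ 0 := by
  have h := discriminant_eq_E₄_cube_sub_E₆_sq z
  have h0 := discriminant_ne_zero z
  intro h'
  rw [h', zero_div] at h
  exact h0 h

/-! ### From equal `j` to homothetic lattices -/

theorem exists_scale_of_j_eq (z z' : ℍ) (h : E₄ z ^ 3 * E₆ z' ^ 2 = E₄ z' ^ 3 * E₆ z ^ 2) :
    ∃ c : ℂ, c ≠ 0 ∧ E₄ z' = c ^ 4 * E₄ z ∧ E₆ z' = c ^ 6 * E₆ z := by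
  set a := E₄ z with ha
  set b := E₆ z with hb
  set a' := E₄ z' with ha'
  set b' := E₆ z' with hb'
  have hΔ : a ^ 3 - b ^ 2 ≠ 0 := E₄_cube_sub_E₆_sq_ne_zero z
  have hΔ' : a' ^ 3 - b' ^ 2 ≠ 0 := E₄_cube_sub_E₆_sq_ne_zero z'
  by_cases ha0 : a = 0
  · -- then `a' = 0`
    have hb0 : b ≠ 0 := by
      intro hb0
      apply hΔ
      rw [ha0, hb0]
      ring
    have ha'0 : a' = 0 := by
      have : a' ^ 3 * b ^ 2 = 0 := by rw [← h, ha0]; ring
      rcases mul_eq_zero.mp this with h1 | h1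
      · exact pow_eq_zero_iff (by norm_num) |>.mp h1
      · exact absurd (pow_eq_zero_iff (by norm_num) |>.mp h1) hb0
    have hb'0 : b' ≠ 0 := by
      intro hb'0
      apply hΔ'
      rw [ha'0, hb'0]
      ring
    obtain ⟨c, hc⟩ := IsAlgClosed.exists_pow_nat_eq (b' / b) (by norm_num : 0 < 6)
    refine ⟨c, ?_, ?_, ?_⟩
    · rintro rfl
      rw [zero_pow (by norm_num)] at hc
      exact (div_ne_zero hb'0 hb0) hc.symm
    · rw [ha0, ha'0, mul_zero]
    · rw [hc, div_mul_cancel₀ _ hb0]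
  · by_cases hb0 : b = 0
    · have hb'0 : b' = 0 := by
        have : a ^ 3 * b' ^ 2 = 0 := by rw [h, hb0]; ring
        rcases mul_eq_zero.mp this with h1 | h1
        · exact absurd (pow_eq_zero_iff (by norm_num) |>.mp h1) ha0
        · exact pow_eq_zero_iff (by norm_num) |>.mp h1
      have ha'0 : a' ≠ 0 := by
        intro ha'0
        apply hΔ'
        rw [ha'0, hb'0]
        ring
      obtain ⟨c, hc⟩ := IsAlgClosed.exists_pow_nat_eq (a' / a) (by norm_num : 0 < 4)
      refine ⟨c, ?_, ?_, ?_⟩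
      · rintro rfl
        rw [zero_pow (by norm_num)] at hc
        exact (div_ne_zero ha'0 ha0) hc.symm
      · rw [hc, div_mul_cancel₀ _ ha0]
      · rw [hb0, hb'0, mul_zero]
    · -- generic case
      have ha'0 : a' ≠ 0 := by
        intro ha'0
        have : a ^ 3 * b' ^ 2 = 0 := by rw [h, ha'0]; ring
        rcases mul_eq_zero.mp this with h1 | h1
        · exact absurd (pow_eq_zero_iff (by norm_num) |>.mp h1) ha0
        · apply hΔ'
          rw [ha'0, pow_eq_zero_iff (by norm_num) |>.mp h1]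
          ring
      obtain ⟨m, hm⟩ := IsAlgClosed.exists_pow_nat_eq (a' / a) (by norm_num : 0 < 4)
      have hm0 : m ≠ 0 := by
        rintro rfl
        rw [zero_pow (by norm_num)] at hm
        exact (div_ne_zero ha'0 ha0) hm.symm
      have hm4 : a' = m ^ 4 * a := by rw [hm, div_mul_cancel₀ _ ha0]
      -- `(m^6 b)^2 = b'^2`
      have hsq : (m ^ 6 * b) ^ 2 = b' ^ 2 := by
        have h1 : a ^ 3 * b' ^ 2 = a ^ 3 * (m ^ 6 * b) ^ 2 := by
          rw [h, hm4]; ring
        exact (mul_left_cancel₀ (pow_ne_zero 3 ha0) h1).symm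
      rcases sq_eq_sq_iff_eq_or_eq_neg.mp hsq with h1 | h1
      · exact ⟨m, hm0, hm4, h1.symm⟩
      · refine ⟨Complex.I * m, mul_ne_zero Complex.I_ne_zero hm0, ?_, ?_⟩
        · rw [mul_pow, Complex.I_pow_four, one_mul]; exact hm4
        · have hI6 : Complex.I ^ 6 = -1 := by
            rw [show (6 : ℕ) = 4 + 2 by norm_num, pow_add, Complex.I_pow_four, Complex.I_sq,
              one_mul]
          rw [mul_pow, hI6]
          linear_combination h1

/-! ### From homothetic lattices to `SL(2, ℤ)`-equivalence -/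

theorem int_eq_zero_of_mul_add_eq_zero (z : ℍ) {m n : ℤ} (h : (m : ℂ) * z + n = 0) :
    m = 0 ∧ n = 0 := by
  have him := congrArg Complex.im h
  simp only [Complex.add_im, Complex.mul_im, Complex.intCast_re, Complex.intCast_im, zero_mul,
    add_zero, Complex.zero_im, UpperHalfPlane.coe_im] at him
  have hm : m = 0 := by
    rcases mul_eq_zero.mp him with h1 | h1
    · exact_mod_cast h1
    · exact absurd h1 z.im_ne_zero
  subst hm
  simp only [Int.cast_zero, zero_mul, zero_add] at h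
  exact ⟨rfl, by exact_mod_cast h⟩

theorem exists_SL2_smul_eq_of_lattice_eq {z z' : ℍ} {c : ℂ} (hc : c ≠ 0)
    (h : (scaledPair c hc (tauPair z)).lattice = (tauPair z').lattice) :
    ∃ γ : SL(2, ℤ), γ • z' = z := by
  have h1 : c * z ∈ (tauPair z').lattice := by
    rw [← h]
    exact mem_scaledPair_lattice.mpr ⟨z, (tauPair z).ω₁_mem_lattice, rfl⟩
  have h2 : c * 1 ∈ (tauPair z').lattice := by
    rw [← h]
    exact mem_scaledPair_lattice.mpr ⟨1, (tauPair z).ω₂_mem_lattice, rfl⟩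
  have h3 : (z' : ℂ) ∈ (scaledPair c hc (tauPair z)).lattice := by
    rw [h]
    exact (tauPair z').ω₁_mem_lattice
  have h4 : (1 : ℂ) ∈ (scaledPair c hc (tauPair z)).lattice := by
    rw [h]
    exact (tauPair z').ω₂_mem_lattice
  obtain ⟨a, b, hab⟩ := mem_tauPair_lattice.mp h1
  obtain ⟨c', d', hcd⟩ := mem_tauPair_lattice.mp h2
  obtain ⟨y3, hy3, hy3'⟩ := mem_scaledPair_lattice.mp h3
  obtain ⟨p, q, rfl⟩ := mem_tauPair_lattice.mp hy3
  obtain ⟨y4, hy4, hy4'⟩ := mem_scaledPair_lattice.mp h4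
  obtain ⟨r, s, rfl⟩ := mem_tauPair_lattice.mp hy4
  rw [mul_one] at hcd
  -- the two matrix identities
  have e1 : ((p * a + q * c' - 1 : ℤ) : ℂ) * z' + ((p * b + q * d' : ℤ) : ℂ) = 0 := by
    push_cast
    linear_combination hy3' + (p : ℂ) * hab + (q : ℂ) * hcd
  have e2 : ((r * a + s * c' : ℤ) : ℂ) * z' + ((r * b + s * d' - 1 : ℤ) : ℂ) = 0 := by
    push_cast
    linear_combination hy4' + (r : ℂ) * hab + (s : ℂ) * hcd
  obtain ⟨e11, e12⟩ := int_eq_zero_of_mul_add_eq_zero z' e1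
  obtain ⟨e21, e22⟩ := int_eq_zero_of_mul_add_eq_zero z' e2
  have hdet : (a * d' - b * c') * (p * s - q * r) = 1 := by
    linear_combination (r * b + s * d') * e11 + e22 - (r * a + s * c') * e12
  -- positivity of the determinant
  have hw : (c' : ℂ) * z' + d' ≠ 0 := by rw [hcd]; exact hc
  have hz : (z : ℂ) * ((c' : ℂ) * z' + d') = a * z' + b := by
    rw [hcd, hab]; ring
  have hre := congrArg Complex.re hz
  have him := congrArg Complex.im hz
  simp only [Complex.mul_re, Complex.mul_im, Complex.add_re, Complex.add_im, Complex.intCast_re,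
    Complex.intCast_im, zero_mul, sub_zero, add_zero, UpperHalfPlane.coe_re,
    UpperHalfPlane.coe_im] at hre him
  have hpos : (0 : ℝ) < (c' * z'.re + d') ^ 2 + (c' * z'.im) ^ 2 := by
    have := Complex.normSq_pos.mpr hw
    rw [Complex.normSq_apply] at this
    simp only [Complex.add_re, Complex.mul_re, Complex.intCast_re, Complex.intCast_im, zero_mul,
      sub_zero, Complex.add_im, Complex.mul_im, add_zero, UpperHalfPlane.coe_re,
      UpperHalfPlane.coe_im] at this
    nlinarith [this]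
  have hD : ((a * d' - b * c' : ℤ) : ℝ) * z'.im
      = z.im * ((c' * z'.re + d') ^ 2 + (c' * z'.im) ^ 2) := by
    push_cast
    linear_combination (-(c' * z'.re + d') : ℝ) * him + (c' * z'.im : ℝ) * hre
  have hDpos : 0 < a * d' - b * c' := by
    have h5 : (0 : ℝ) < ((a * d' - b * c' : ℤ) : ℝ) * z'.im := by
      rw [hD]; exact mul_pos z.im_pos hpos
    have h6 : (0 : ℝ) < ((a * d' - b * c' : ℤ) : ℝ) := by
      by_contra hneg
      push Not at hneg
      have := mul_nonpos_of_nonpos_of_nonneg hneg z'.im_pos.le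
      linarith
    exact_mod_cast h6
  have hD1 : a * d' - b * c' = 1 := by
    rcases Int.eq_one_or_neg_one_of_mul_eq_one hdet with h7 | h7
    · exact h7
    · omega
  have hdet1 : (!![a, b; c', d'] : Matrix (Fin 2) (Fin 2) ℤ).det = 1 := by
    rw [Matrix.det_fin_two_of]; exact hD1
  set γ : SL(2, ℤ) := ⟨!![a, b; c', d'], hdet1⟩ with hγ
  refine ⟨γ, ?_⟩
  apply UpperHalfPlane.ext
  rw [UpperHalfPlane.coe_specialLinearGroup_apply]
  have g00 : γ 0 0 = a := rfl
  have g01 : γ 0 1 = b := rfl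
  have g10 : γ 1 0 = c' := rfl
  have g11 : γ 1 1 = d' := rfl
  simp only [g00, g01, g10, g11, algebraMap_int_eq, Int.coe_castRingHom, Complex.ofReal_intCast]
  rw [div_eq_iff hw, hz]

/-! ### Injectivity of `j` modulo `SL(2, ℤ)` -/

/-- **`j = E₄³/Δ` is injective modulo `SL(2, ℤ)`**, stated without division. -/
theorem exists_SL2_smul_eq_of_E₄_E₆ (z z' : ℍ)
    (h : E₄ z ^ 3 * E₆ z' ^ 2 = E₄ z' ^ 3 * E₆ z ^ 2) : ∃ γ : SL(2, ℤ), γ • z' = z := by
  obtain ⟨c, hc, h4, h6⟩ := exists_scale_of_j_eq z z' h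
  have hc' : c⁻¹ ≠ 0 := inv_ne_zero hc
  have e2 : (scaledPair c⁻¹ hc' (tauPair z)).g₂ = (tauPair z').g₂ := by
    rw [g₂_scaledPair, g₂_tauPair, g₂_tauPair, h4, inv_pow, inv_inv]
    ring
  have e3 : (scaledPair c⁻¹ hc' (tauPair z)).g₃ = (tauPair z').g₃ := by
    rw [g₃_scaledPair, g₃_tauPair, g₃_tauPair, h6, inv_pow, inv_inv]
    ring
  exact exists_SL2_smul_eq_of_lattice_eq hc' (lattice_eq_of_g₂_g₃_eq _ _ e2 e3)

theorem exists_SL2_smul_eq_of_j_eq (z z' : ℍ)
    (h : E₄ z ^ 3 * discriminant z' = E₄ z' ^ 3 * discriminant z) :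
    ∃ γ : SL(2, ℤ), γ • z' = z := by
  refine exists_SL2_smul_eq_of_E₄_E₆ z z' ?_
  rw [discriminant_eq_E₄_cube_sub_E₆_sq, discriminant_eq_E₄_cube_sub_E₆_sq] at h
  linear_combination (-1728 : ℂ) * h

end Fermat.Agent.S20_helper24
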