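import Mathlib.Analysis.SpecialFunctions.Elliptic.Weierstrass

set_option autoImplicit false

namespace Fermat.Agent.S20_helper24

open Filter Topology
open scoped PeriodPair

/-- A solution of a linear first order ODE `w' = h w` with analytic coefficient which vanishes at a
point vanishes identically near that point. -/
theorem eventually_eq_zero_of_deriv_eq_mul {w h : ℂ → ℂ} {x : ℂ} (hw : AnalyticAt ℂ w x)
    (hh : AnalyticAt ℂ h x) (hw0 : w x = 0) (hode : ∀ᶠ z in 𝓝 x, deriv w z = h z * w z) :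
    ∀ᶠ z in 𝓝 x, w z = 0 := by
  rw [← analyticOrderAt_eq_top]
  by_contra hne
  have h1 : analyticOrderAt (deriv w) x + 1 = analyticOrderAt w x := by
    have := hw.analyticOrderAt_deriv_add_one
    simpa [hw0] using this
  have h2 : analyticOrderAt (deriv w) x = analyticOrderAt h x + analyticOrderAt w x := by
    rw [← analyticOrderAt_mul hh hw]
    exact analyticOrderAt_congr hode
  rw [h2] at h1
  obtain ⟨n, hn⟩ := ENat.ne_top_iff_exists.mp hne
  rw [← hn] at h1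
  by_cases htop : analyticOrderAt h x = ⊤
  · rw [htop] at h1
    simp at h1
  · obtain ⟨m, hm⟩ := ENat.ne_top_iff_exists.mp htop
    rw [← hm] at h1
    norm_cast at h1
    omega

/-! ### Uniqueness of `℘` given `g₂`, `g₃` -/

section unique

variable (L₁ L₂ : PeriodPair)

theorem weierstrassP_eq_except (L : PeriodPair) (z : ℂ) :
    ℘[L] z = ℘[L - (0 : ℂ)] z + 1 / z ^ 2 := by
  have := L.weierstrassPExcept_def (0 : L.lattice) z
  simp only [ZeroMemClass.coe_zero, sub_zero] at this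
  rw [this]
  simp

theorem derivWeierstrassP_eq_except (L : PeriodPair) (z : ℂ) :
    ℘'[L] z = ℘'[L - (0 : ℂ)] z - 2 / z ^ 3 := by
  have := L.derivWeierstrassPExcept_def (0 : L.lattice) z
  simp only [ZeroMemClass.coe_zero, sub_zero] at this
  rw [this]
  ring

/-- the polynomial form of the differential equation in terms of the regular parts -/
theorem except_ode (L : PeriodPair) {z : ℂ} (hz : z ∉ L.lattice) :
    (z ^ 3 * ℘'[L - (0 : ℂ)] z - 2) ^ 2 =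
      4 * (z ^ 2 * ℘[L - (0 : ℂ)] z + 1) ^ 3 - L.g₂ * z ^ 4 * (z ^ 2 * ℘[L - (0 : ℂ)] z + 1)
        - L.g₃ * z ^ 6 := by
  have hz0 : z ≠ 0 := by
    rintro rfl
    exact hz (zero_mem _)
  have h := L.derivWeierstrassP_sq z hz
  rw [weierstrassP_eq_except L z, derivWeierstrassP_eq_except L z] at h
  have h1 : z ^ 3 * ℘'[L - (0 : ℂ)] z - 2 = z ^ 3 * (℘'[L - (0 : ℂ)] z - 2 / z ^ 3) := by
    field_simp
  have h2 : z ^ 2 * ℘[L - (0 : ℂ)] z + 1 = z ^ 2 * (℘[L - (0 : ℂ)] z + 1 / z ^ 2) := by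
    field_simp
  rw [h1, h2, mul_pow, h]
  ring

theorem eventually_notMem_lattice (L : PeriodPair) : ∀ᶠ z in 𝓝 (0 : ℂ), z ≠ 0 → z ∉ L.lattice := by
  filter_upwards [L.compl_lattice_sdiff_singleton_mem_nhds 0] with z hz hz0 hzL
  exact hz ⟨hzL, hz0⟩

theorem hasDerivAt_weierstrassPExcept_zero (L : PeriodPair) :
    ∀ᶠ z in 𝓝 (0 : ℂ), HasDerivAt ℘[L - (0 : ℂ)] (℘'[L - (0 : ℂ)] z) z := by
  have hopen : IsOpen ((L.lattice : Set ℂ) \ {0})ᶜ := L.isOpen_compl_lattice_sdiff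
  have hmem : (0 : ℂ) ∈ ((L.lattice : Set ℂ) \ {0})ᶜ := by simp
  filter_upwards [hopen.mem_nhds hmem] with z hz
  have hd : DifferentiableAt ℂ ℘[L - (0 : ℂ)] z :=
    (L.differentiableOn_weierstrassPExcept 0).differentiableAt (hopen.mem_nhds hz)
  have := hd.hasDerivAt
  rwa [L.eqOn_deriv_weierstrassPExcept_derivWeierstrassPExcept 0 hz] at this

/-- Two lattices with the same `g₂`, `g₃` have the same regular part of `℘` near `0`. -/
theorem weierstrassPExcept_eventuallyEq (h2 : L₁.g₂ = L₂.g₂) (h3 : L₁.g₃ = L₂.g₃) :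
    ∀ᶠ z in 𝓝 (0 : ℂ), ℘[L₁ - (0 : ℂ)] z = ℘[L₂ - (0 : ℂ)] z := by
  set p₁ := ℘[L₁ - (0 : ℂ)] with hp₁
  set p₂ := ℘[L₂ - (0 : ℂ)] with hp₂
  set d₁ := ℘'[L₁ - (0 : ℂ)] with hd₁
  set d₂ := ℘'[L₂ - (0 : ℂ)] with hd₂
  have ap₁ : AnalyticAt ℂ p₁ 0 := L₁.analyticAt_weierstrassPExcept 0
  have ap₂ : AnalyticAt ℂ p₂ 0 := L₂.analyticAt_weierstrassPExcept 0
  have ad₁ : AnalyticAt ℂ d₁ 0 := L₁.analyticAt_derivWeierstrassPExcept 0
  have ad₂ : AnalyticAt ℂ d₂ 0 := L₂.analyticAt_derivWeierstrassPExcept 0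
  -- the auxiliary functions
  set w : ℂ → ℂ := fun z => z ^ 3 * (p₁ z - p₂ z) with hw
  set A : ℂ → ℂ := fun z => z ^ 3 * (d₁ z + d₂ z) - 4 with hA
  set C : ℂ → ℂ := fun z => 3 * z * (d₁ z + d₂ z) + 12 * (p₁ z + p₂ z)
    + 4 * z ^ 2 * (p₁ z ^ 2 + p₁ z * p₂ z + p₂ z ^ 2) - L₁.g₂ * z ^ 2 with hC
  set h : ℂ → ℂ := fun z => z * C z / A z with hh
  have aw : AnalyticAt ℂ w 0 := by fun_prop
  have aA : AnalyticAt ℂ A 0 := by fun_prop
  have aC : AnalyticAt ℂ C 0 := by fun_prop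
  have hA0 : A 0 ≠ 0 := by simp [hA]
  have ah : AnalyticAt ℂ h 0 := by
    have : AnalyticAt ℂ (fun z : ℂ => z * C z) 0 := by fun_prop
    exact this.div aA hA0
  have hAne : ∀ᶠ z in 𝓝 (0 : ℂ), A z ≠ 0 := aA.continuousAt.eventually_ne hA0
  have hw0 : w 0 = 0 := by simp [hw]
  have hode : ∀ᶠ z in 𝓝 (0 : ℂ), deriv w z = h z * w z := by
    filter_upwards [hAne, eventually_notMem_lattice L₁, eventually_notMem_lattice L₂,
      hasDerivAt_weierstrassPExcept_zero L₁, hasDerivAt_weierstrassPExcept_zero L₂]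
      with z hAz hz1 hz2 hD1 hD2
    have hdw : HasDerivAt w (3 * z ^ 2 * (p₁ z - p₂ z) + z ^ 3 * (d₁ z - d₂ z)) z := by
      have h1 : HasDerivAt (fun z : ℂ => z ^ 3) (3 * z ^ 2) z := by
        simpa using hasDerivAt_pow 3 z
      exact h1.mul (hD1.sub hD2)
    rw [hdw.deriv, hh]
    simp only
    rw [div_mul_eq_mul_div, eq_div_iff hAz]
    by_cases hz0 : z = 0
    · subst hz0
      simp [hw]
    · have e1 := except_ode L₁ (hz1 hz0)
      have e2 := except_ode L₂ (hz2 hz0)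
      rw [← h2, ← h3] at e2
      simp only [hw, hA, hC]
      linear_combination e1 - e2
  have := eventually_eq_zero_of_deriv_eq_mul aw ah hw0 hode
  filter_upwards [this] with z hz
  by_cases hz0 : z = 0
  · subst hz0
    simp [hp₁, hp₂]
  · have : z ^ 3 ≠ 0 := pow_ne_zero _ hz0
    simp only [hw] at hz
    exact sub_eq_zero.mp ((mul_eq_zero.mp hz).resolve_left this)

theorem countable_lattice (L : PeriodPair) : (L.lattice : Set ℂ).Countable :=
  countable_of_Lindelof_of_discrete (X := L.lattice)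

/-- Two lattices with the same `g₂`, `g₃` have the same `℘` away from the lattices. -/
theorem weierstrassP_eq_of_g₂_g₃_eq (h2 : L₁.g₂ = L₂.g₂) (h3 : L₁.g₃ = L₂.g₃) {z : ℂ}
    (hz1 : z ∉ L₁.lattice) (hz2 : z ∉ L₂.lattice) : ℘[L₁] z = ℘[L₂] z := by
  set U : Set ℂ := (((L₁.lattice : Set ℂ) ∪ L₂.lattice) \ {0})ᶜ with hU
  have hUc : IsPreconnected U := by
    refine (Set.Countable.isConnected_compl_of_one_lt_rank (by simp) ?_).2
    exact ((countable_lattice L₁).union (countable_lattice L₂)).mono Set.sdiff_subset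
  have h0 : (0 : ℂ) ∈ U := by simp [hU]
  have hU1 : U ⊆ ((L₁.lattice : Set ℂ) \ {0})ᶜ := by
    intro x hx hx'
    exact hx ⟨Or.inl hx'.1, hx'.2⟩
  have hU2 : U ⊆ ((L₂.lattice : Set ℂ) \ {0})ᶜ := by
    intro x hx hx'
    exact hx ⟨Or.inr hx'.1, hx'.2⟩
  have a1 : AnalyticOnNhd ℂ ℘[L₁ - (0 : ℂ)] U := (L₁.analyticOnNhd_weierstrassPExcept 0).mono hU1
  have a2 : AnalyticOnNhd ℂ ℘[L₂ - (0 : ℂ)] U := (L₂.analyticOnNhd_weierstrassPExcept 0).mono hU2
  have key := a1.eqOn_of_preconnected_of_eventuallyEq a2 hUc h0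
    (weierstrassPExcept_eventuallyEq L₁ L₂ h2 h3)
  have hzU : z ∈ U := by
    intro hx
    rcases hx.1 with h | h
    · exact hz1 h
    · exact hz2 h
  rw [weierstrassP_eq_except L₁ z, weierstrassP_eq_except L₂ z, key hzU]

theorem lattice_le_of_g₂_g₃_eq (h2 : L₁.g₂ = L₂.g₂) (h3 : L₁.g₃ = L₂.g₃) :
    L₁.lattice ≤ L₂.lattice := by
  intro x hx1
  by_contra hx2
  have hord : meromorphicOrderAt ℘[L₁] x = -2 := L₁.order_weierstrassP x hx1
  have han : AnalyticAt ℂ ℘[L₂] x := L₂.analyticOnNhd_weierstrassP x hx2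
  have hcongr : ℘[L₁] =ᶠ[𝓝[≠] x] ℘[L₂] := by
    have e1 : ∀ᶠ z in 𝓝 x, z ∉ (L₁.lattice : Set ℂ) \ {x} :=
      L₁.compl_lattice_sdiff_singleton_mem_nhds x
    have e2 : ∀ᶠ z in 𝓝 x, z ∉ (L₂.lattice : Set ℂ) :=
      L₂.isClosed_lattice.isOpen_compl.mem_nhds hx2
    rw [Filter.EventuallyEq, eventually_nhdsWithin_iff]
    filter_upwards [e1, e2] with z hz1 hz2 hzx
    exact weierstrassP_eq_of_g₂_g₃_eq L₁ L₂ h2 h3 (fun h => hz1 ⟨h, hzx⟩) hz2
  rw [meromorphicOrderAt_congr hcongr] at hord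
  have := han.meromorphicOrderAt_nonneg
  rw [hord] at this
  exact absurd this (by decide)

/-- **Uniqueness**: a lattice is determined by its invariants `g₂`, `g₃`. -/
theorem lattice_eq_of_g₂_g₃_eq (h2 : L₁.g₂ = L₂.g₂) (h3 : L₁.g₃ = L₂.g₃) :
    L₁.lattice = L₂.lattice :=
  le_antisymm (lattice_le_of_g₂_g₃_eq L₁ L₂ h2 h3) (lattice_le_of_g₂_g₃_eq L₂ L₁ h2.symm h3.symm)

end unique

end Fermat.Agent.S20_helper24
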